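import Fermat.Agent.GeneralBrauerSiegel.Residue
import Fermat.Agent.ConductorDiscr.AbelianBounds

/-!
# The generalised Brauer–Siegel inequality

Along a sequence of fields with `g → ∞` and converging ratios `log κ ≤ (∑ φ q log (q/(q-1)) + ε) g`
eventually; with the class number formula this bounds `log (h R)`. Since
`log (q/(q-1)) ≤ log q/(q-1)` the basic inequality makes `log (h R) ≤ (2 + ε) g + C` in every field.
-/

set_option autoImplicit false
set_option linter.style.haveILetI false

noncomputable section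

universe u

open NumberField InfinitePlace Module Filter Topology Set
open FA.HeckeBS FA.TsfasmanVladut
open scoped Real Classical

namespace FA.GeneralBrauerSiegel

/-- **The class number formula in logarithms.** -/
theorem log_hR_eq (K : Type u) [Field K] [NumberField K] :
    Real.log ((classNumber K : ℝ) * Units.regulator K) =
      Real.log (dedekindZeta_residue K) + logGenus K + Real.log (Units.torsionOrder K) -
        nrRealPlaces K * Real.log 2 - nrComplexPlaces K * Real.log (2 * π) := by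
  have hw : (Units.torsionOrder K : ℝ) ≠ 0 := Nat.cast_ne_zero.2 (Units.torsionOrder_pos K).ne'
  have h2 : (2 : ℝ) ^ (nrRealPlaces K + nrComplexPlaces K) ≠ 0 := pow_ne_zero _ two_ne_zero
  rw [log_residue_eq, show (classNumber K : ℝ) * Units.regulator K = hR K from rfl, hR_eq,
    Real.log_div (mul_ne_zero (polarR_pos K).ne' hw) h2, Real.log_mul (polarR_pos K).ne' hw,
    Real.log_pow, Real.log_mul two_ne_zero Real.pi_ne_zero]
  push_cast
  ring

/-- `log w ≤ ε g + C`. -/
theorem exists_log_torsion_le {ε : ℝ} (hε : 0 < ε) : ∃ C : ℝ, 0 ≤ C ∧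
    ∀ (K : Type u) [Field K] [NumberField K],
      Real.log (Units.torsionOrder K) ≤ ε * logGenus K + C := by
  obtain ⟨A, hA, hdeg⟩ := exists_degree_le.{u}
  obtain ⟨δ, hδ⟩ : ∃ δ, δ = ε / (2 * A) := ⟨_, rfl⟩
  have hδ0 : 0 < δ := hδ ▸ by positivity
  refine ⟨|Real.log 2 - 2 * Real.log δ + ε|, abs_nonneg _, fun K _ _ => ?_⟩
  have hn : (0 : ℝ) < finrank ℚ K := Nat.cast_pos.2 finrank_pos
  have hw : (Units.torsionOrder K : ℝ) ≤ 2 * (finrank ℚ K : ℝ) ^ 2 := by
    exact_mod_cast FA.ConductorDiscr.torsionOrder_le K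
  have h := (Real.log_le_log (Nat.cast_pos.2 (Units.torsionOrder_pos K)) hw)
  rw [Real.log_mul two_ne_zero (by positivity), Real.log_pow] at h
  have h1 := Real.log_le_sub_one_of_pos (mul_pos hδ0 hn)
  rw [Real.log_mul hδ0.ne' hn.ne'] at h1
  have h2 := mul_le_mul_of_nonneg_left (hdeg K) hδ0.le
  have h3 : δ * (A * (logGenus K + 1)) = ε / 2 * logGenus K + ε / 2 := by
    rw [hδ]
    field_simp
  push_cast at h
  linarith [le_abs_self (Real.log 2 - 2 * Real.log δ + ε)]

/-- **`log (h R)` against the places of small norm and infinity.** -/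
theorem exists_log_hR_le {ε : ℝ} (hε : 0 < ε) : ∃ (Q : ℕ) (C : ℝ), 0 ≤ C ∧
    ∀ (K : Type u) [Field K] [NumberField K],
      Real.log ((classNumber K : ℝ) * Units.regulator K) ≤
        (∑ q ∈ Finset.Icc 2 Q, (placeCount K q : ℝ) * lossTerm q) -
          (nrRealPlaces K * Real.log 2 + nrComplexPlaces K * Real.log (2 * π)) +
          (1 + ε) * logGenus K + C := by
  obtain ⟨Q, C, hC, h⟩ := exists_log_residue_le.{u} (half_pos hε)
  obtain ⟨C', hC', h'⟩ := exists_log_torsion_le.{u} (half_pos hε)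
  refine ⟨Q, C + C', by positivity, fun K _ _ => ?_⟩
  rw [log_hR_eq]
  linarith [h K, h' K]

/-- **`log (h R) ≤ (2 + ε) g + C` in every number field.** -/
theorem exists_log_hR_le_two {ε : ℝ} (hε : 0 < ε) : ∃ C : ℝ,
    ∀ (K : Type u) [Field K] [NumberField K],
      Real.log ((classNumber K : ℝ) * Units.regulator K) ≤ (2 + ε) * logGenus K + C := by
  obtain ⟨Q, C, -, h⟩ := exists_log_hR_le.{u} (half_pos hε)
  obtain ⟨C', -, h'⟩ := exists_lhs_le_mul.{u} (Finset.Icc 2 Q) (half_pos hε)
  refine ⟨C + C', fun K _ _ => ?_⟩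
  have a := h K
  have b := h' K
  rw [lhsAt] at b
  have c : ∑ q ∈ Finset.Icc 2 Q, (placeCount K q : ℝ) * lossTerm q ≤
      ∑ q ∈ Finset.Icc 2 Q, (placeCount K q : ℝ) * placeWeight 1 q :=
    Finset.sum_le_sum fun q _ => mul_le_mul_of_nonneg_left (lossTerm_le q) (Nat.cast_nonneg _)
  have d : 0 ≤ (nrRealPlaces K : ℝ) * (realRate 1 + Real.log 2) +
      nrComplexPlaces K * (complexRate 1 + Real.log (2 * π)) :=
    add_nonneg (mul_nonneg (Nat.cast_nonneg _)
      (add_nonneg rates_one_pos.1.le (Real.log_nonneg one_le_two)))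
      (mul_nonneg (Nat.cast_nonneg _) (add_nonneg rates_one_pos.2.le
        (Real.log_nonneg (by linarith [Real.pi_gt_three]))))
  linarith

variable {F : ℕ → Type u} [∀ i, Field (F i)] [∀ i, NumberField (F i)]
variable {φ : ℕ → ℝ} {φR φC : ℝ}

/-- The series converges. -/
theorem summable_loss (h : RatiosTend F φ φR φC)
    (hg : Tendsto (fun i => logGenus (F i)) atTop atTop) :
    Summable fun q => φ q * lossTerm q :=
  Summable.of_nonneg_of_le (fun q => mul_nonneg (h.nonneg q) (lossTerm_nonneg q))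
    (fun q => mul_le_mul_of_nonneg_left (lossTerm_le q) (h.nonneg q)) (h.basic_inequality hg).1

/-- A finite sum of losses is eventually below the series. -/
theorem eventually_sum_loss_le (h : RatiosTend F φ φR φC)
    (hg : Tendsto (fun i => logGenus (F i)) atTop atTop) (S : Finset ℕ) {ε : ℝ} (hε : 0 < ε) :
    ∀ᶠ i in atTop, ∑ q ∈ S, (placeCount (F i) q : ℝ) * lossTerm q ≤
      (∑' q, φ q * lossTerm q + ε) * logGenus (F i) := by
  have hlim := tendsto_finsetSum S fun q _ => (h.finite q).mul_const (lossTerm q)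
  have hle : ∑ q ∈ S, φ q * lossTerm q < ∑' q, φ q * lossTerm q + ε := by
    have := (summable_loss h hg).sum_le_tsum S
      fun q _ => mul_nonneg (h.nonneg q) (lossTerm_nonneg q)
    linarith
  filter_upwards [hlim.eventually (eventually_lt_nhds hle), hg.eventually_gt_atTop 0] with i hi hg0
  simp only [div_mul_eq_mul_div, ← Finset.sum_div] at hi
  rw [div_lt_iff₀ hg0] at hi
  exact hi.le

/-- **The residue along the sequence.** -/
theorem eventually_log_residue_le (h : RatiosTend F φ φR φC)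
    (hg : Tendsto (fun i => logGenus (F i)) atTop atTop) {ε : ℝ} (hε : 0 < ε) :
    ∀ᶠ i in atTop, Real.log (dedekindZeta_residue (F i)) ≤
      (∑' q, φ q * lossTerm q + ε) * logGenus (F i) := by
  obtain ⟨Q, C, hC, hres⟩ := exists_log_residue_le.{u} (show 0 < ε / 3 by linarith)
  filter_upwards [eventually_sum_loss_le h hg (Finset.Icc 2 Q) (show 0 < ε / 3 by linarith),
    hg.eventually_ge_atTop (3 * C / ε)] with i hi hi'
  rw [div_le_iff₀ hε] at hi'
  linarith [hres (F i)]

/-- **Class number times regulator along the sequence.** -/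
theorem eventually_log_hR_le (h : RatiosTend F φ φR φC)
    (hg : Tendsto (fun i => logGenus (F i)) atTop atTop) {ε : ℝ} (hε : 0 < ε) :
    ∀ᶠ i in atTop, Real.log ((classNumber (F i) : ℝ) * Units.regulator (F i)) ≤
      (1 + ∑' q, φ q * lossTerm q - (φR * Real.log 2 + φC * Real.log (2 * π)) + ε) *
        logGenus (F i) := by
  obtain ⟨Q, C, hC, hres⟩ := exists_log_hR_le.{u} (show 0 < ε / 4 by linarith)
  have harch : Tendsto (fun i => (nrRealPlaces (F i) : ℝ) / logGenus (F i) * Real.log 2 +
      (nrComplexPlaces (F i) : ℝ) / logGenus (F i) * Real.log (2 * π)) atTop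
      (𝓝 (φR * Real.log 2 + φC * Real.log (2 * π))) :=
    (h.real.mul_const _).add (h.complex.mul_const _)
  filter_upwards [eventually_sum_loss_le h hg (Finset.Icc 2 Q) (show 0 < ε / 4 by linarith),
    hg.eventually_ge_atTop (4 * C / ε), hg.eventually_gt_atTop 0,
    harch.eventually (eventually_gt_nhds (show φR * Real.log 2 + φC * Real.log (2 * π) - ε / 4 <
      φR * Real.log 2 + φC * Real.log (2 * π) by linarith))] with i hi hi' hg0 ha
  rw [div_le_iff₀ hε] at hi'
  rw [div_mul_eq_mul_div, div_mul_eq_mul_div, ← add_div, lt_div_iff₀ hg0] at ha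
  linarith [hres (F i)]

/-- **With `n / g → 0` the bound is `1`, with no Galois hypothesis.** -/
theorem eventually_log_hR_le_one {ι : Type*} {l : Filter ι} (G : ι → Type u) [∀ i, Field (G i)]
    [∀ i, NumberField (G i)] (hg : Tendsto (fun i => logGenus (G i)) l atTop)
    (hn : Tendsto (fun i => (finrank ℚ (G i) : ℝ) / logGenus (G i)) l (𝓝 0)) {ε : ℝ} (hε : 0 < ε) :
    ∀ᶠ i in l, Real.log ((classNumber (G i) : ℝ) * Units.regulator (G i)) ≤
      (1 + ε) * logGenus (G i) := by
  obtain ⟨Q, C, hC, hres⟩ := exists_log_hR_le.{u} (show 0 < ε / 3 by linarith)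
  obtain ⟨M, hM⟩ : ∃ M, M = ∑ q ∈ Finset.Icc 2 Q, lossTerm q := ⟨_, rfl⟩
  have hM0 : 0 ≤ M := hM ▸ Finset.sum_nonneg fun q _ => lossTerm_nonneg q
  filter_upwards [hn.eventually (eventually_le_nhds (show 0 < ε / (3 * (M + 1)) by positivity)),
    hg.eventually_ge_atTop (3 * C / ε), hg.eventually_gt_atTop 0] with i hi hi' hg0
  rw [div_le_iff₀ hε] at hi'
  rw [div_le_div_iff₀ hg0 (by positivity)] at hi
  have a : ∑ q ∈ Finset.Icc 2 Q, (placeCount (G i) q : ℝ) * lossTerm q ≤
      finrank ℚ (G i) * M := by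
    rw [hM, Finset.mul_sum]
    exact Finset.sum_le_sum fun q _ => mul_le_mul_of_nonneg_right
      (Nat.cast_le.2 (placeCount_le (G i) q)) (lossTerm_nonneg q)
  have b : 0 ≤ (nrRealPlaces (G i) : ℝ) * Real.log 2 +
      nrComplexPlaces (G i) * Real.log (2 * π) :=
    add_nonneg (mul_nonneg (Nat.cast_nonneg _) (Real.log_nonneg one_le_two))
      (mul_nonneg (Nat.cast_nonneg _) (Real.log_nonneg (by linarith [Real.pi_gt_three])))
  have c : (0 : ℝ) ≤ finrank ℚ (G i) := Nat.cast_nonneg _
  linarith [hres (G i)]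

end FA.GeneralBrauerSiegel

end
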