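import Fermat.Agent.TsfasmanVladut.Asymptotic
import Fermat.Agent.StarkZero.Real
import Fermat.Agent.HeckeBS.Main

/-!
# The residue of `ζ_K` against its places of small norm

`ξ` increases on `σ ≥ 1`, so `log κ ≤ log ζ_K σ + (σ - 1) (g + n)` up to a constant; in the Euler
product the places of norm above `Q` contribute `≤ Q ^ (-(σ - 1)/2) n E`. With `n ≪ g + 1` this
gives `log κ ≤ ∑_{q ≤ Q} N_q log (q / (q - 1)) + ε g + C` for all number fields at once.
-/

set_option autoImplicit false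
set_option linter.style.haveILetI false

noncomputable section

universe u

open NumberField InfinitePlace Module Filter Topology Set IsDedekindDomain Ideal
open FA.HeckeBS FA.StarkOdlyzko FA.TsfasmanVladut
open scoped Real Classical

namespace FA.GeneralBrauerSiegel

/-- `log (q / (q - 1))`. -/
def lossTerm (q : ℕ) : ℝ := Real.log ((q : ℝ) / ((q : ℝ) - 1))

theorem lossTerm_nonneg (q : ℕ) : 0 ≤ lossTerm q := by
  rcases Nat.lt_or_ge 1 q with hq | hq
  · have hq1 : (1 : ℝ) < q := Nat.one_lt_cast.2 hq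
    exact Real.log_nonneg (by rw [le_div_iff₀ (by linarith)]; linarith)
  · interval_cases q <;> simp [lossTerm]

/-- `log (q / (q - 1)) ≤ log q / (q - 1)`. -/
theorem lossTerm_le (q : ℕ) : lossTerm q ≤ placeWeight 1 q := by
  rcases Nat.lt_or_ge 2 q with hq | hq
  · have hq3 : (3 : ℝ) ≤ q := by exact_mod_cast hq
    have h1 : 1 ≤ Real.log q := by
      rw [Real.le_log_iff_exp_le (by linarith)]
      linarith [Real.exp_one_lt_d9]
    rw [lossTerm, placeWeight, Real.rpow_one]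
    calc Real.log ((q : ℝ) / ((q : ℝ) - 1)) ≤ (q : ℝ) / ((q : ℝ) - 1) - 1 :=
          Real.log_le_sub_one_of_pos (div_pos (by linarith) (by linarith))
      _ = 1 / ((q : ℝ) - 1) := by
          have : (q : ℝ) - 1 ≠ 0 := by linarith
          field_simp
          ring
      _ ≤ _ := div_le_div_of_nonneg_right h1 (by linarith)
  · interval_cases q <;> norm_num [lossTerm, placeWeight]

variable {K : Type u} [Field K] [NumberField K]

theorem factor_le {σ : ℝ} (hσ : 1 ≤ σ) {q : ℕ} (hq : 2 ≤ q) :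
    0 < 1 - (q : ℝ) ^ (-σ) ∧ (1 - (q : ℝ) ^ (-σ))⁻¹ ≤ Real.exp (lossTerm q) ∧
      (1 - (q : ℝ) ^ (-σ))⁻¹ ≤ Real.exp (2 * (q : ℝ) ^ (-σ)) := by
  have hq2 : (2 : ℝ) ≤ q := by exact_mod_cast hq
  have hx : (q : ℝ) ^ (-σ) ≤ (q : ℝ)⁻¹ := by
    rw [← Real.rpow_neg_one]
    exact Real.rpow_le_rpow_of_exponent_le (by linarith) (by linarith)
  have hx2 : (q : ℝ)⁻¹ ≤ 1 / 2 := by
    rw [one_div]
    exact inv_anti₀ two_pos hq2
  have hx0 := Real.rpow_nonneg (show (0 : ℝ) ≤ q by linarith) (-σ)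
  refine ⟨by linarith, ?_, ?_⟩
  · rw [lossTerm, Real.exp_log (div_pos (by linarith) (by linarith))]
    refine (inv_anti₀ (by linarith) (sub_le_sub_left hx 1)).trans (le_of_eq ?_)
    have : (q : ℝ) - 1 ≠ 0 := by linarith
    field_simp
  · have he := Real.add_one_le_exp (2 * (q : ℝ) ^ (-σ))
    rw [inv_le_iff_one_le_mul₀ (by linarith)]
    nlinarith

variable (K)

/-- **`log ζ_K σ` against the places of norm `≤ Q`.** -/
theorem log_zetaR_le {σ : ℝ} (hσ : 1 < σ) {Q : ℕ} (hQ : 1 ≤ Q) :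
    Real.log (zetaR K σ) ≤ (∑ q ∈ Finset.Icc 2 Q, (placeCount K q : ℝ) * lossTerm q) +
      (Q : ℝ) ^ (-((σ - 1) / 2)) * (finrank ℚ K * eulerConst ((1 + σ) / 2)) := by
  obtain ⟨B, hB⟩ : ∃ B, B = (∑ q ∈ Finset.Icc 2 Q, (placeCount K q : ℝ) * lossTerm q) +
      (Q : ℝ) ^ (-((σ - 1) / 2)) * (finrank ℚ K * eulerConst ((1 + σ) / 2)) := ⟨_, rfl⟩
  rw [← hB, Real.log_le_iff_le_exp (zetaR_pos K hσ)]
  have hlim : Tendsto (fun T : Finset (HeightOneSpectrum (𝓞 K)) =>
      ‖∏ v ∈ T, (1 - ((absNorm v.asIdeal : ℕ) : ℂ) ^ (-(σ : ℂ)))⁻¹‖) atTop (𝓝 (zetaR K σ)) := by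
    have h := (FA.AbelianZeta.hasProd_primes (F := K) (s := (σ : ℂ)) (by simpa using hσ)).norm
    rw [dedekindZeta_ofReal K hσ, Complex.norm_real, Real.norm_of_nonneg (zetaR_pos K hσ).le] at h
    simp only [norm_prod]
    exact h
  refine le_of_tendsto hlim (Eventually.of_forall fun T => ?_)
  obtain ⟨x, hx⟩ : ∃ x : HeightOneSpectrum (𝓞 K) → ℝ,
      x = fun v => ((absNorm v.asIdeal : ℕ) : ℝ) ^ (-σ) := ⟨_, rfl⟩
  have hq : ∀ v : HeightOneSpectrum (𝓞 K), 2 ≤ absNorm v.asIdeal := fun v =>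
    NumberField.HeightOneSpectrum.one_lt_absNorm v
  have hfac : ∀ v : HeightOneSpectrum (𝓞 K),
      ‖(1 - ((absNorm v.asIdeal : ℕ) : ℂ) ^ (-(σ : ℂ)))⁻¹‖ ≤
        Real.exp (if absNorm v.asIdeal ≤ Q then lossTerm (absNorm v.asIdeal) else 2 * x v) := by
    intro v
    obtain ⟨h0, h1, h2⟩ := factor_le hσ.le (hq v)
    rw [← Complex.ofReal_natCast, ← Complex.ofReal_neg,
      ← Complex.ofReal_cpow (Nat.cast_nonneg _), ← Complex.ofReal_one, ← Complex.ofReal_sub,
      ← Complex.ofReal_inv, Complex.norm_real, Real.norm_of_nonneg (inv_nonneg.2 h0.le)]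
    split_ifs
    · exact h1
    · rw [hx]
      exact h2
  rw [norm_prod]
  refine (Finset.prod_le_prod (fun v _ => norm_nonneg _) fun v _ => hfac v).trans ?_
  rw [← Real.exp_sum, Finset.sum_ite]
  refine Real.exp_le_exp.2 (hB ▸ add_le_add ?_ ?_)
  · calc ∑ v ∈ T.filter (fun v => absNorm v.asIdeal ≤ Q), lossTerm (absNorm v.asIdeal)
        ≤ ∑ v ∈ (Finset.Icc 2 Q).biUnion (fun q => (finite_places_norm K q).toFinset),
          lossTerm (absNorm v.asIdeal) := Finset.sum_le_sum_of_subset_of_nonneg (fun v hv => by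
            simp only [Finset.mem_biUnion, Finset.mem_Icc, Set.Finite.mem_toFinset]
            exact ⟨_, ⟨hq v, (Finset.mem_filter.1 hv).2⟩, rfl⟩) fun v _ _ => lossTerm_nonneg _
      _ = _ := by
        rw [Finset.sum_biUnion]
        · refine Finset.sum_congr rfl fun q _ => ?_
          rw [placeCount, Set.ncard_eq_toFinset_card _ (finite_places_norm K q),
            Finset.sum_eq_card_nsmul (b := lossTerm q) fun v hv => ?_, nsmul_eq_mul]
          rw [(Set.Finite.mem_toFinset _).1 hv]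
        · intro a _ b _ hab
          refine Finset.disjoint_left.2 fun v ha hb => hab ?_
          have h1 : absNorm v.asIdeal = a := by simpa using ha
          have h2 : absNorm v.asIdeal = b := by simpa using hb
          exact h1.symm.trans h2
  · have hσ' : 1 < (1 + σ) / 2 := by linarith
    have hQ0 : (0 : ℝ) < Q := Nat.cast_pos.2 hQ
    calc ∑ v ∈ T.filter (fun v => ¬absNorm v.asIdeal ≤ Q), 2 * x v
        ≤ ∑ v ∈ T.filter (fun v => ¬absNorm v.asIdeal ≤ Q), (Q : ℝ) ^ (-((σ - 1) / 2)) *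
          (2 * ((absNorm v.asIdeal : ℕ) : ℝ) ^ (-((1 + σ) / 2))) := by
          refine Finset.sum_le_sum fun v hv => ?_
          have hv' : (Q : ℝ) ≤ ((absNorm v.asIdeal : ℕ) : ℝ) :=
            Nat.cast_le.2 (not_le.1 (Finset.mem_filter.1 hv).2).le
          rw [hx, mul_left_comm]
          refine mul_le_mul_of_nonneg_left ?_ zero_le_two
          dsimp only
          rw [show -σ = -((σ - 1) / 2) + -((1 + σ) / 2) by ring,
            Real.rpow_add (hQ0.trans_le hv')]
          exact mul_le_mul_of_nonneg_right (Real.rpow_le_rpow_of_nonpos hQ0 hv' (by linarith))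
            (Real.rpow_nonneg (Nat.cast_nonneg _) _)
      _ ≤ _ := by
          rw [← Finset.mul_sum, ← Finset.mul_sum]
          exact mul_le_mul_of_nonneg_left (sum_prime_rpow_le _ hσ')
            (Real.rpow_nonneg (Nat.cast_nonneg _) _)

/-- `log κ = log ξ(1) + r₂ log π - g`. -/
theorem log_residue_eq : Real.log (dedekindZeta_residue K) =
    Real.log (polarR K) + nrComplexPlaces K * Real.log π - logGenus K := by
  have hd : (0 : ℝ) < (((discr K).natAbs : ℕ) : ℝ) :=
    Nat.cast_pos.2 (Int.natAbs_pos.2 (discr_ne_zero K))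
  have hw : (0 : ℝ) < Units.torsionOrder K := Nat.cast_pos.2 (Units.torsionOrder_pos K)
  have e : dedekindZeta_residue K =
      polarR K * π ^ nrComplexPlaces K / Real.sqrt (((discr K).natAbs : ℕ) : ℝ) := by
    rw [dedekindZeta_residue_def,
      show |((discr K : ℤ) : ℝ)| = (((discr K).natAbs : ℕ) : ℝ) by
      rw [← Int.cast_abs, ← Int.natCast_natAbs, Int.cast_natCast], polarR_eq, mul_pow, pow_add]
    field_simp
  have hpi : π ^ nrComplexPlaces K ≠ 0 := pow_ne_zero _ Real.pi_ne_zero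
  rw [e, Real.log_div (mul_ne_zero (polarR_pos K).ne' hpi) (Real.sqrt_ne_zero'.2 hd),
    Real.log_mul (polarR_pos K).ne' hpi, Real.log_pow, Real.log_sqrt hd.le, logGenus]

/-- **`κ` against `ζ_K σ`.** -/
theorem log_residue_le {σ : ℝ} (hσ : 1 < σ) (hσ2 : σ ≤ 2) :
    Real.log (dedekindZeta_residue K) ≤
      (σ - 1) * (logGenus K + finrank ℚ K) + 1 + Real.log (zetaR K σ) := by
  have h := Real.log_le_log (by rw [xiR]; simpa using polarR_pos K : 0 < xiR K 1)
    (xiR_mono (K := K) le_rfl hσ.le)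
  rw [show xiR K 1 = polarR K by rw [xiR]; simp, xiR_eq K hσ,
    Real.log_mul (polyGam_pos K hσ).ne' (zetaR_pos K hσ).ne', log_polyGam K hσ] at h
  obtain ⟨D, hD⟩ : ∃ D, D = Real.log (((discr K).natAbs : ℕ) : ℝ) := ⟨_, rfl⟩
  rw [← hD] at h
  have hR1 : logR 1 = 0 := by
    rw [logR, Real.Gamma_one_half_eq, Real.log_sqrt Real.pi_pos.le]
    ring
  have hC1 : logC 1 = -Real.log π := by
    rw [logC, Real.Gamma_one, Real.log_one, Real.log_mul two_ne_zero Real.pi_ne_zero]
    ring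
  have a := FA.StarkZero.logR_sub_le le_rfl hσ.le hσ2
  have b := FA.StarkZero.logC_sub_le le_rfl hσ.le hσ2
  rw [hR1] at a
  rw [hC1] at b
  have a' := mul_le_mul_of_nonneg_left a (Nat.cast_nonneg (nrRealPlaces K) : (0 : ℝ) ≤ _)
  have b' := mul_le_mul_of_nonneg_left b (Nat.cast_nonneg (nrComplexPlaces K) : (0 : ℝ) ≤ _)
  have c : Real.log σ ≤ 1 := (Real.log_le_sub_one_of_pos (by linarith)).trans (by linarith)
  have d : Real.log (σ - 1) ≤ 0 := Real.log_nonpos (by linarith) (by linarith)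
  have e := mul_le_mul_of_nonneg_left (show (nrRealPlaces K : ℝ) + nrComplexPlaces K ≤ finrank ℚ K
    from (le_add_of_nonneg_right (Nat.cast_nonneg (nrComplexPlaces K))).trans
      (le_of_eq (by linarith [degree_split K]))) (show 0 ≤ σ - 1 by linarith)
  rw [log_residue_eq, logGenus, ← hD]
  linarith

/-- **The uniform bound for the residue.** -/
theorem exists_log_residue_le {ε : ℝ} (hε : 0 < ε) : ∃ (Q : ℕ) (C : ℝ), 0 ≤ C ∧
    ∀ (K : Type u) [Field K] [NumberField K], Real.log (dedekindZeta_residue K) ≤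
      (∑ q ∈ Finset.Icc 2 Q, (placeCount K q : ℝ) * lossTerm q) + ε * logGenus K + C := by
  obtain ⟨A, hA, hdeg⟩ := exists_degree_le.{u}
  obtain ⟨η, hη⟩ : ∃ η, η = min 1 (ε / (2 * (1 + A))) := ⟨_, rfl⟩
  have hη0 : 0 < η := hη ▸ lt_min one_pos (div_pos hε (by positivity))
  have hη1 : η * (1 + A) ≤ ε / 2 := by
    have h : η ≤ ε / (2 * (1 + A)) := hη ▸ min_le_right _ _
    rw [le_div_iff₀ (by positivity)] at h
    linarith
  obtain ⟨E, hE⟩ : ∃ E, E = eulerConst ((1 + (1 + η)) / 2) := ⟨_, rfl⟩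
  have hE0 : 0 ≤ E := hE ▸ FA.DedekindZF.eulerConst_nonneg _
  have hlim : Tendsto (fun Q : ℕ => (Q : ℝ) ^ (-((1 + η - 1) / 2)) * (A * E)) atTop (𝓝 0) := by
    simpa using ((tendsto_rpow_neg_atTop (show 0 < (1 + η - 1) / 2 by linarith)).comp
      tendsto_natCast_atTop_atTop).mul_const (A * E)
  obtain ⟨Q, hQ1, hQ⟩ := ((eventually_ge_atTop 1).and
    (hlim.eventually (eventually_le_nhds (half_pos hε)))).exists
  refine ⟨Q, η * A + ε / 2 + 1, by positivity, fun K _ _ => ?_⟩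
  have h := log_residue_le K (show 1 < 1 + η by linarith)
    (show 1 + η ≤ 2 by linarith [hη ▸ min_le_left 1 (ε / (2 * (1 + A)))])
  have h2 := log_zetaR_le K (show 1 < 1 + η by linarith) hQ1
  rw [← hE] at h2
  have hg := logGenus_nonneg K
  have hpow := Real.rpow_nonneg (Nat.cast_nonneg Q) (-((1 + η - 1) / 2))
  have h3 := mul_le_mul_of_nonneg_left (mul_le_mul_of_nonneg_right (hdeg K) hE0) hpow
  have h4 := mul_le_mul_of_nonneg_left (hdeg K) hη0.le
  have h5 := mul_le_mul_of_nonneg_right hQ (show 0 ≤ logGenus K + 1 by linarith)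
  have h6 := mul_le_mul_of_nonneg_right hη1 hg
  linarith

end FA.GeneralBrauerSiegel

end
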